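import Fermat.Agent.S36.AuxL.Core
import Fermat.Agent.S36.Descent.K0Res
import Fermat.Agent.S36.Norm.Five
import Fermat.Agent.S36.Tor.Loc
import Fermat.Agent.S36.Tor.Loc

set_option autoImplicit false

/-!
# S36 / Core : the interface between the top level (`Core/Main.lean`) and the instance chapter INST36

Levels: `M` (prime to `q`, divisible by `auxR q`), `P = M * q`, `N = M * q * q`.
`(K, ι)` is the inertia field `K₀ = Fix(I_A)` of `S36/Descent/K0.lean` (an opaque field with `ι : K →+* ℚ̄`), `R₀ = A.comap ι`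
is a DVR with uniformiser `q`.  `FK K N = modularFunctionFieldFullC K N ⊆ K((Q))`.

* `auxR q`   : the prime-to-`q` part of `72` (so `9 ∣ M` for `q ≠ 3`, `8 ∣ M` for `q ≠ 2`, `72 ∣ M` for `q ≥ 5`);
* `Geo36 M q A ι` : the two degeneracy maps over `K`, compatibility of the norms with `toFN`, the five valuation rings, helper2's `Norm.Ctx3`,
  helper14's `Tor.TorChart` for both charts, helper21's `LG.Reg2` at all closed points, the pole of `x` at `∞`.
* `toricExp q` : the exponent of the TORIC theorem.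
-/

noncomputable section

namespace Fermat.Agent.S36.Core

open AlgebraicCurve ModularCurve
open Fermat.Agent.S24 (Kb FN iotaK)
open Fermat.Agent.S18 (toFN)
open Fermat.Agent.S36.Norm

/-- the prime-to-`q` part of `72`. -/
def auxR (q : ℕ) : ℕ := if q = 2 then 9 else if q = 3 then 8 else 72

theorem auxR_ne_zero (q : ℕ) : auxR q ≠ 0 := by
  unfold auxR; split_ifs <;> norm_num

instance (q : ℕ) : NeZero (auxR q) := ⟨auxR_ne_zero q⟩

theorem auxR_coprime {q : ℕ} (hq : q.Prime) : Nat.Coprime q (auxR q) := by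
  unfold auxR
  split_ifs with h2 h3
  · subst h2; norm_num
  · subst h3; norm_num
  · have h72 : (72 : ℕ) = 2 ^ 3 * 3 ^ 2 := by norm_num
    rw [h72]
    exact Nat.Coprime.mul_right
      (Nat.Coprime.pow_right 3 ((Nat.coprime_primes hq Nat.prime_two).2 h2))
      (Nat.Coprime.pow_right 2 ((Nat.coprime_primes hq Nat.prime_three).2 h3))

/-- the function field of `X₀(N)` over `K`. -/
abbrev FK (K : Type) [Field K] (N : ℕ) : IntermediateField K (LaurentSeries K) :=
  modularFunctionFieldFullC K N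

instance (K : Type) [Field K] [CharZero K] (N : ℕ) : CharZero (FK K N) :=
  charZero_of_injective_algebraMap (algebraMap K (FK K N)).injective

/-- the geometric package at level `M q²` over `(K, ι)`: what `Core/Main.lean` and `Core/Toric.lean` consume.
`R = A.comap ι`, `ϖ = q`, `F' = FK K (M q)`, `F = FK K (M q²)`; `V = ![V_∞, V_mid, V_0]`. -/
structure Geo36 (M q : ℕ) [NeZero M] [NeZero q] (A : ValuationSubring Kb) {K : Type} [Field K]
    [CharZero K] (ι : K →+* Kb) where
  /-- the inclusion `F_{Mq,K} ⊆ F_{Mq²,K}`. -/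
  α : FK K (M * q) →ₐ[K] FK K (M * q * q)
  /-- `f(Q) ↦ f(Q^q)`. -/
  β : FK K (M * q) →ₐ[K] FK K (M * q * q)
  coe_α : ∀ y, ((α y : FK K (M * q * q)) : LaurentSeries K) = y
  coe_β : ∀ y, ((β y : FK K (M * q * q)) : LaurentSeries K) = qExpand K q y
  /-- base change of the norms. -/
  norm_α : ∀ u, toFN ι (M * q) (normAlong (α : FK K (M * q) →+* FK K (M * q * q)) u) =
    GES.normA (M * q) q (toFN ι (M * q * q) u)
  norm_β : ∀ u, toFN ι (M * q) (normAlong (β : FK K (M * q) →+* FK K (M * q * q)) u) =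
    AuxL.normB (M * q) q (toFN ι (M * q * q) u)
  /-- the two branches at level `M q`. -/
  Vi' : ValuationSubring (FK K (M * q))
  V0' : ValuationSubring (FK K (M * q))
  /-- the three branches at level `M q²`: `V 0 = V_∞`, `V 1 = V_mid`, `V 2 = V_0`. -/
  V : Fin 3 → ValuationSubring (FK K (M * q * q))
  t : FK K (M * q * q)
  tα : FK K (M * q * q)
  tβ : FK K (M * q * q)
  yα : FK K (M * q)
  yβ : FK K (M * q)
  /-- chapter NORM. -/
  ctx : Ctx3 q (A.comap ι) (q : K) (α : FK K (M * q) →+* FK K (M * q * q))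
    (β : FK K (M * q) →+* FK K (M * q * q)) Vi' V0' (V 0) (V 1) (V 2) t tα tβ yα yβ
  /-- the coordinate at level `M q`, resp. `M q²`. -/
  x' : FK K (M * q)
  x : FK K (M * q * q)
  /-- chapter TOR, both charts. -/
  tor_fin : Tor.TorChart (R := ↥(A.comap ι)) (K := K) (q : ↥(A.comap ι)) q V 0 1 2 x' x α β
    (normAlong (α : FK K (M * q) →+* FK K (M * q * q)))
    (normAlong (β : FK K (M * q) →+* FK K (M * q * q))) Vi' V0'
  tor_inf : Tor.TorChart (R := ↥(A.comap ι)) (K := K) (q : ↥(A.comap ι)) q V 0 1 2 x'⁻¹ x⁻¹ α β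
    (normAlong (α : FK K (M * q) →+* FK K (M * q * q)))
    (normAlong (β : FK K (M * q) →+* FK K (M * q * q))) Vi' V0'
  /-- chapter LOCGEN, both charts. -/
  reg_fin : ∀ n : Ideal (S18.CInt ↥(A.comap ι) K x),
    S34.IsClosedPt (q : ↥(A.comap ι)) n → LG.Reg2 n
  reg_inf : ∀ n : Ideal (S18.CInt ↥(A.comap ι) K x⁻¹),
    S34.IsClosedPt (q : ↥(A.comap ι)) n → LG.Reg2 n
  /-- `x` has a pole at the cusp `∞`. -/
  x_ord : 0 < ((x⁻¹ : FK K (M * q * q)) : LaurentSeries K).order

/-- the exponent of the TORIC theorem. -/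
def toricExp (q : ℕ) : ℕ := (q ^ 2 - 1) * q

theorem toricExp_ne_zero {q : ℕ} (hq : q.Prime) : toricExp q ≠ 0 := by
  have h2 := hq.two_le
  have h4 : 2 ^ 2 ≤ q ^ 2 := Nat.pow_le_pow_left h2 2
  unfold toricExp
  exact Nat.mul_ne_zero (by omega) hq.ne_zero

end Fermat.Agent.S36.Core
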