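import Fermat.Agent.S36.Core.ExistsA
import Fermat.Agent.S36.Inst.Conc

set_option autoImplicit false

/-!
# S36 / Core / Exists : existence of the geometric package   (task I-Geo36; owner: helper27, chapter INST36)

`exists_geo36`: over the inertia field `(K, ι)` the package `Geo36 M q A ι` exists, as soon as `q ∤ M` and `auxR q ∣ M`.
Assembly: helper16's `exists_geo36_of` (`Core/ExistsA.lean`) + `Inst.conc_reg`, `Inst.conc_tor` (`Inst/Conc.lean`).
-/

noncomputable section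

namespace Fermat.Agent.S36.Core

open AlgebraicCurve ModularCurve
open Fermat.Agent.S24 (Kb FN iotaK)
open Fermat.Agent.S36.Descent (IsInertiaField)

theorem exists_geo36 (M q : ℕ) [NeZero M] [NeZero q] (hq : q.Prime) (hqM : ¬ q ∣ M)
    (hr : auxR q ∣ M) (A : ValuationSubring Kb) (hA : A.LiesOverPrime q) {K : Type} [Field K]
    [CharZero K] (ι : K →+* Kb) (hι : IsInertiaField A ι) : Nonempty (Geo36 M q A ι) := by
  refine exists_geo36_of M q hq hqM hr A hA ι hι ?_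
  intro _ P
  letI := P.aF1F
  letI := P.tw2
  letI := P.tw3
  have e1 : algebraMap P.E ↥(FK K (M * q * q)) P.T1.x = P.T.xF := P.T.xF_eq.symm
  have e2 : algebraMap P.E ↥(FK K (M * q * q)) P.T1.x⁻¹ = P.T.xF⁻¹ := by rw [map_inv₀, e1]
  have r1 := Inst.conc_reg hq hqM hr hA hι P.hT1 P.hζ P.hT P.c1 P.c2 (t₀ := P.T1.x) (Or.inl rfl)
  have r2 := Inst.conc_reg hq hqM hr hA hι P.hT1 P.hζ P.hT P.c1 P.c2 (t₀ := P.T1.x⁻¹) (Or.inr rfl)
  have t1 := (Inst.conc_tor hq hqM hr hA hι P.hT1 P.hζ P.hT P.c1 P.c2 (t₀ := P.T1.x)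
    (Or.inl rfl)).tri
  have t2 := (Inst.conc_tor hq hqM hr hA hι P.hT1 P.hζ P.hT P.c1 P.c2 (t₀ := P.T1.x⁻¹)
    (Or.inr rfl)).tri
  rw [e1] at r1 t1
  rw [e2] at r2 t2
  exact ⟨r1, r2, t1, t2⟩

end Fermat.Agent.S36.Core
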