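import Fermat.Agent.S36.Core.Defs
import Fermat.Agent.S36.C0.Conc
import Fermat.Agent.S36.C0.Norm
import Fermat.Agent.S36.V3.TorA
import Fermat.Agent.S34.Inst.Conc

set_option autoImplicit false
set_option linter.unusedSectionVars false

/-!
# S36 / Core / ExistsA : the concrete package `Pack36` over the inertia field, and `Pack36.geo : Geo36`

* `Pack36 M q A ι` bundles: the opaque level-`M` field `E`, the concrete two-level context `T1` (`V2.IsConc`), the two `Chart1` at level `M`, the algebra structures / towers,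
  the concrete three-level context `T` (`C0.IsConc3`).
* `exists_pack36` : it exists over the inertia field.
* `Pack36.geo` : `Geo36 M q A ι` from `P : Pack36 M q A ι` and the four statements still to be provided by INST36 for `P.T`: `reg_fin`, `reg_inf` (LOCGEN), `tri_fin`, `tri_inf`.
-/

noncomputable section

namespace Fermat.Agent.S36.Core

open AlgebraicCurve ModularCurve Polynomial
open Fermat.Agent.S24 (Kb FN iotaK)
open Fermat.Agent.S18 (toFN lineOf rE CInt)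
open Fermat.Agent.S34 Fermat.Agent.S34.V2 Fermat.Agent.S36.V3 Fermat.Agent.S36.C0
open Fermat.Agent.S36.Norm
open Fermat.Agent.S36.Descent (IsInertiaField)

/-- the concrete data at levels `M`, `M q`, `M q²` over `(K, ι)`. -/
structure Pack36 (M q : ℕ) [NeZero M] [NeZero q] (A : ValuationSubring Kb) {K : Type} [Field K]
    [CharZero K] (ι : K →+* Kb) [IsDiscreteValuationRing ↥(A.comap ι)] where
  E : Type
  [fE : Field E]
  [aKE : Algebra K E]
  [aEF1 : Algebra E ↥(FK K (M * q))]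
  [tw1 : IsScalarTower K E ↥(FK K (M * q))]
  T1 : Two ↥(A.comap ι) K q E ↥(FK K (M * q))
  hT1 : IsConc M q T1
  c1 : Chart1 K (q : ↥(A.comap ι)) T1.x T1.VE
  c2 : Chart1 K (q : ↥(A.comap ι)) T1.x⁻¹ T1.VE
  [aF1F : Algebra ↥(FK K (M * q)) ↥(FK K (M * q * q))]
  [tw2 : IsScalarTower K ↥(FK K (M * q)) ↥(FK K (M * q * q))]
  [aEF : Algebra E ↥(FK K (M * q * q))]
  [tw3 : IsScalarTower E ↥(FK K (M * q)) ↥(FK K (M * q * q))]
  [tw4 : IsScalarTower K E ↥(FK K (M * q * q))]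
  ζ : Kbˣ
  hζ : IsPrimitiveRoot ζ q
  T : Three ↥A Kb ↥(FK K (M * q * q)) T1
  hT : IsConc3 ι ζ T

attribute [instance] Pack36.fE Pack36.aKE Pack36.aEF1 Pack36.tw1 Pack36.aEF Pack36.tw4

theorem lineOf_r_dvd_auxR (q : ℕ) : (lineOf q).r ∣ auxR q := by
  unfold lineOf auxR
  split_ifs with h3 h2 h2
  · omega
  · exact ⟨4, by simp [S18.line2]⟩
  · exact ⟨3, by simp [S18.line3]⟩
  · exact ⟨24, by simp [S18.line3]⟩

theorem exists_pack36 (M q : ℕ) [NeZero M] [NeZero q] (hq : q.Prime) (hqM : ¬ q ∣ M)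
    (hr : auxR q ∣ M) (A : ValuationSubring Kb) (hA : A.LiesOverPrime q) {K : Type} [Field K]
    [CharZero K] (ι : K →+* Kb) (hι : IsInertiaField A ι)
    [IsDiscreteValuationRing ↥(A.comap ι)] : Nonempty (Pack36 M q A ι) := by
  have hunr : Irreducible (q : ↥(A.comap ι)) := hι.irreducible_q hq hA
  -- an auxiliary prime `p ≠ q`
  obtain ⟨p, hp, hpq⟩ : ∃ p : ℕ, p.Prime ∧ p ≠ q := by
    by_cases h2 : q = 2
    · exact ⟨3, Nat.prime_three, by omega⟩
    · exact ⟨2, Nat.prime_two, fun h => h2 h.symm⟩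
  have hqp : ¬ q ∣ p := fun h => hpq ((Nat.prime_dvd_prime_iff_eq hq hp).1 h).symm
  obtain ⟨ζp, hζp⟩ := hι.exists_primitiveRoot hq hA hqp
  obtain ⟨ζM, hζM⟩ := hι.exists_primitiveRoot hq hA hqM
  obtain ⟨E, _, _, _, _, T1, hT1, c1, c2⟩ := exists_two0 M q p hq hqM
    ((lineOf_r_dvd_auxR q).trans hr) A hA hp hpq K ι ζp hζp ζM hζM hunr
  obtain ⟨ζ0, hζ0⟩ := HasEnoughRootsOfUnity.exists_primitiveRoot Kb q
  obtain ⟨ζ, rfl⟩ := hζ0.isUnit (NeZero.ne q)
  have hζ : IsPrimitiveRoot ζ q := IsPrimitiveRoot.coe_units_iff.mp hζ0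
  obtain ⟨a1, t2, T, hT⟩ := exists_three M q hq hqM A K ι hunr T1 hT1 ζ hζ
  letI aEF : Algebra E ↥(FK K (M * q * q)) :=
    ((algebraMap ↥(FK K (M * q)) ↥(FK K (M * q * q))).comp
      (algebraMap E ↥(FK K (M * q)))).toAlgebra
  haveI tw3 : IsScalarTower E ↥(FK K (M * q)) ↥(FK K (M * q * q)) :=
    IsScalarTower.of_algebraMap_eq fun _ => rfl
  haveI tw4 : IsScalarTower K E ↥(FK K (M * q * q)) :=
    IsScalarTower.of_algebraMap_eq fun c => by
      rw [IsScalarTower.algebraMap_apply K ↥(FK K (M * q)) ↥(FK K (M * q * q)),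
        IsScalarTower.algebraMap_apply K E ↥(FK K (M * q))]
      rfl
  exact ⟨{ E := E, T1 := T1, hT1 := hT1, c1 := c1, c2 := c2, ζ := ζ, hζ := hζ, T := T, hT := hT }⟩

namespace Pack36

variable {M q : ℕ} [NeZero M] [NeZero q] {A : ValuationSubring Kb} {K : Type} [Field K]
  [CharZero K] {ι : K →+* Kb} [IsDiscreteValuationRing ↥(A.comap ι)] (P : Pack36 M q A ι)

/-- strong M8 at level `M q`, chart `x`. -/
theorem m8_fin : P.T1.i2 P.T1.x ∈ CInt ↥(A.comap ι) K (algebraMap P.E ↥(FK K (M * q)) P.T1.x) :=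
  letI := P.aF1F
  V2.Branches.mem_CInt P.T.hunr (P.T1.branches P.T.hunr P.c1.fin P.c1.inO_iff) P.hT1.m8_fin
    P.T1.xq_mem_Vi P.T1.xq_mem_V0

/-- strong M8 at level `M q`, chart `x⁻¹`. -/
theorem m8_inf :
    P.T1.i2 P.T1.x⁻¹ ∈ CInt ↥(A.comap ι) K (algebraMap P.E ↥(FK K (M * q)) P.T1.x⁻¹) := by
  letI := P.aF1F
  have hxinv : P.T1.x⁻¹ ∈ P.T1.VE := P.c2.C_le P.T.hunr (S18.self_mem_CInt _)
  have e1 : algebraMap P.E ↥(FK K (M * q)) P.T1.x⁻¹ = P.T1.xF⁻¹ := map_inv₀ _ _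
  have e2 : P.T1.i2 P.T1.x⁻¹ = P.T1.xq⁻¹ := map_inv₀ _ _
  rw [e1, e2]
  refine V2.Branches.mem_CInt_inv P.T.hunr (P.T1.branches P.T.hunr P.c1.fin P.c1.inO_iff)
    P.hT1.m8_inf ?_ ?_
  · rw [← e2]; exact P.T1.i2_mem_Vi.2 hxinv
  · rw [← e2]; exact P.T1.i2_mem_V0.2 hxinv

/-- `α` of the package is the inclusion. -/
theorem αK_eq : letI := P.aF1F; letI := P.tw2
    ((P.T.αK : ↥(FK K (M * q)) →ₐ[K] ↥(FK K (M * q * q))) :
      ↥(FK K (M * q)) →+* ↥(FK K (M * q * q))) = (alphaK K (M * q) q).toRingHom := by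
  letI := P.aF1F
  letI := P.tw2
  refine RingHom.ext fun y => Subtype.ext ?_
  exact (P.hT.alg_eq y).trans (coe_alphaK K (M * q) q y).symm

theorem β_eq : letI := P.aF1F
    ((P.T.β : ↥(FK K (M * q)) →ₐ[K] ↥(FK K (M * q * q))) :
      ↥(FK K (M * q)) →+* ↥(FK K (M * q * q))) = (betaK K (M * q) q).toRingHom := by
  letI := P.aF1F
  refine RingHom.ext fun y => Subtype.ext ?_
  exact (P.hT.β_eq y).trans (coe_betaK K (M * q) q y).symm

theorem coe_xF : letI := P.aF1F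
    ((P.T.xF : ↥(FK K (M * q * q))) : LaurentSeries K) = S18.xK K (lineOf q) := by
  letI := P.aF1F
  exact (P.hT.alg_eq P.T1.xF).trans P.hT1.coe_xF

/-- **the record for `Core/Main.lean`**, from the package and the four statements of INST36. -/
def geo (hq : q.Prime) (hqM : ¬ q ∣ M)
    (hk : ∀ Q : (↥(A.comap ι))[X], Q.Monic → Q.natDegree ≠ 0 →
      ∃ z : ↥(A.comap ι), (q : ↥(A.comap ι)) ∣ Q.eval z)
    (reg_fin : letI := P.aF1F
      ∀ n : Ideal (CInt ↥(A.comap ι) K P.T.xF), IsClosedPt (q : ↥(A.comap ι)) n → LG.Reg2 n)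
    (reg_inf : letI := P.aF1F
      ∀ n : Ideal (CInt ↥(A.comap ι) K P.T.xF⁻¹), IsClosedPt (q : ↥(A.comap ι)) n → LG.Reg2 n)
    (tri_fin : letI := P.aF1F
      ∀ n : Ideal (CInt ↥(A.comap ι) K P.T.xF), IsClosedPt (q : ↥(A.comap ι)) n →
        (∀ j, Centered (P.T.Vf j) n) ∨ ∃ j₀, ∀ j, Centered (P.T.Vf j) n → j = j₀)
    (tri_inf : letI := P.aF1F
      ∀ n : Ideal (CInt ↥(A.comap ι) K P.T.xF⁻¹), IsClosedPt (q : ↥(A.comap ι)) n →
        (∀ j, Centered (P.T.Vf j) n) ∨ ∃ j₀, ∀ j, Centered (P.T.Vf j) n → j = j₀) :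
    Geo36 M q A ι :=
  letI := P.aF1F
  letI := P.tw2
  letI := P.tw3
  { α := P.T.αK
    β := P.T.β
    coe_α := P.hT.alg_eq
    coe_β := P.hT.β_eq
    norm_α := fun u => by
      rw [P.αK_eq]
      exact toFN_norm_alpha ι M q hq u
    norm_β := fun u => by
      rw [P.β_eq]
      exact toFN_norm_beta ι M q hq hqM u
    Vi' := P.T1.Vi
    V0' := P.T1.V0
    V := P.T.Vf
    t := P.T.Y
    tα := P.T.xqq
    tβ := P.T.xF
    yα := P.T1.xq
    yβ := P.T1.xF
    ctx := by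
      have h := P.T.ctx3
      rw [RK_eq] at h
      exact h
    x' := P.T1.xF
    x := P.T.xF
    tor_fin := P.T.torChart_fin P.c1 P.m8_fin hk tri_fin
    tor_inf := P.T.torChart_inf P.c1 P.c2 P.m8_inf hk tri_inf
    reg_fin := reg_fin
    reg_inf := reg_inf
    x_ord := by
      have h1 : (((P.T.xF)⁻¹ : ↥(FK K (M * q * q))) : LaurentSeries K) =
          (S18.xK K (lineOf q))⁻¹ := by
        rw [← P.coe_xF]
        rfl
      rw [h1, S18.invChart_order_inv, S18.order_xK]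
      norm_num }

end Pack36

/-- the residue field of `R₀` is algebraically closed (in the shape of `Tor.isRat_of_algClosed`). -/
theorem hk_of_inertia {q : ℕ} (hq : q.Prime) {A : ValuationSubring Kb} (hA : A.LiesOverPrime q)
    {K : Type} [Field K] {ι : K →+* Kb} (hι : IsInertiaField A ι)
    (Q : (↥(A.comap ι))[X]) (hQ : Q.Monic) (hdeg : Q.natDegree ≠ 0) :
    ∃ z : ↥(A.comap ι), (q : ↥(A.comap ι)) ∣ Q.eval z := by
  obtain ⟨z, hz⟩ := hι.exists_root_mod hq hA Q hQ hdeg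
  rw [hι.maximalIdeal_eq hq hA, Ideal.mem_span_singleton] at hz
  exact ⟨z, hz⟩

/-- what INST36 still has to prove about a package. -/
structure Pack36.Good {M q : ℕ} [NeZero M] [NeZero q] {A : ValuationSubring Kb} {K : Type} [Field K]
    [CharZero K] {ι : K →+* Kb} [IsDiscreteValuationRing ↥(A.comap ι)] (P : Pack36 M q A ι) :
    Prop where
  reg_fin : letI := P.aF1F
    ∀ n : Ideal (CInt ↥(A.comap ι) K P.T.xF), IsClosedPt (q : ↥(A.comap ι)) n → LG.Reg2 n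
  reg_inf : letI := P.aF1F
    ∀ n : Ideal (CInt ↥(A.comap ι) K P.T.xF⁻¹), IsClosedPt (q : ↥(A.comap ι)) n → LG.Reg2 n
  tri_fin : letI := P.aF1F
    ∀ n : Ideal (CInt ↥(A.comap ι) K P.T.xF), IsClosedPt (q : ↥(A.comap ι)) n →
      (∀ j, Centered (P.T.Vf j) n) ∨ ∃ j₀, ∀ j, Centered (P.T.Vf j) n → j = j₀
  tri_inf : letI := P.aF1F
    ∀ n : Ideal (CInt ↥(A.comap ι) K P.T.xF⁻¹), IsClosedPt (q : ↥(A.comap ι)) n →
      (∀ j, Centered (P.T.Vf j) n) ∨ ∃ j₀, ∀ j, Centered (P.T.Vf j) n → j = j₀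

/-- `exists_geo36` reduced to `Pack36.Good`. -/
theorem exists_geo36_of (M q : ℕ) [NeZero M] [NeZero q] (hq : q.Prime) (hqM : ¬ q ∣ M)
    (hr : auxR q ∣ M) (A : ValuationSubring Kb) (hA : A.LiesOverPrime q) {K : Type} [Field K]
    [CharZero K] (ι : K →+* Kb) (hι : IsInertiaField A ι)
    (H : ∀ [IsDiscreteValuationRing ↥(A.comap ι)] (P : Pack36 M q A ι), P.Good) :
    Nonempty (Geo36 M q A ι) := by
  haveI := hι.isDVR hq hA
  obtain ⟨P⟩ := exists_pack36 M q hq hqM hr A hA ι hι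
  have hP := H P
  exact ⟨P.geo hq hqM (hk_of_inertia hq hA hι) hP.reg_fin hP.reg_inf hP.tri_fin hP.tri_inf⟩

end Fermat.Agent.S36.Core
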