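import Fermat.Agent.S36.Core.Defs
import Fermat.Agent.S36.Tor.Main
import Fermat.Agent.S36.LG.Kummer
import Fermat.Agent.S36.LG.E1
import Fermat.Agent.S34.BR.IntB
import Fermat.Agent.S34.BR.Fam
import Fermat.Agent.S18.B.Trans
import Fermat.Agent.S36.Tor.FromCtx
import Fermat.Agent.S36.V3.OutRoot

set_option autoImplicit false
set_option linter.unusedSectionVars false

/-!
# S36 / Core / Toric : the TORIC theorem at level `M q²` over the inertia field

`u₁ ∈ F_{Mq²,K}` with `p^k ∣ div u₁`, `u₁ ≡ 1` at the three vertical valuations, `N_α u₁`, `N_β u₁` = constant * `p^k`-th power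
`⟹ u₁ ^ toricExp q` is a `p^k`-th power.   Instance of helper14's abstract `Tor.toric`, fed by `Geo36`:
* the constants of the norms are absorbed (`exact_of_nc`: units of `R₀` are `m`-th powers, `v(a) ∈ mℤ` since `N u₁ ≡ 1`);
* KUMMER at every closed point: helper21's `LG.exists_eq_unit_mul_pow` with `G.reg_fin`, `G.reg_inf`, helper15's `valFam_wP`, `intAt_wP`, `LG.exists_wP_eq_one`;
* the root of `u₁` in `K((Q))`: helper2's `V3.exists_root_series` (KUMMER at the reduction of the cusp `∞`).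
-/

noncomputable section

namespace Fermat.Agent.S36.Core

open AlgebraicCurve ModularCurve
open Fermat.Agent.S24 (Kb FN iotaK)
open Fermat.Agent.S18 (toFN rE CInt)
open Fermat.Agent.S34 (IsClosedPt LocUnit wP)
open Fermat.Agent.S36.Norm
open Fermat.Agent.S36.Descent (IsInertiaField)

section
variable {A : ValuationSubring Kb} {q : ℕ} {K : Type} [Field K] [CharZero K] {ι : K →+* Kb}

theorem isUnit_natCast (hA : A.LiesOverPrime q) {p : ℕ} (hpq : Nat.Coprime p q) :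
    IsUnit (p : ↥(A.comap ι)) := by
  rw [IsInertiaField.isUnit_iff]
  intro h
  have h1 : ι (((p : ↥(A.comap ι)) : ↥(A.comap ι)) : K) = (p : Kb) := by
    have : (((p : ↥(A.comap ι)) : ↥(A.comap ι)) : K) = (p : K) := by push_cast; rfl
    rw [this, map_natCast]
  rw [h1] at h
  obtain ⟨s, t, hst⟩ := Nat.isCoprime_iff_coprime.2 hpq
  have h2 : (s : Kb) * (p : Kb) + (t : Kb) * (q : Kb) = 1 := by exact_mod_cast congrArg (Int.cast : ℤ → Kb) hst
  have hs : ∀ z : ℤ, (z : Kb) ∈ A := fun z => intCast_mem A z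
  have h3 : (1 : Kb) ∈ A.nonunits := by
    rw [← h2]
    exact S18.add_mem_nonunits A (S18.mul_mem_nonunits A (hs s) h) (S18.mul_mem_nonunits A (hs t) hA)
  exact S18.one_notMem_nonunits A h3

/-- a constant times an `m`-th power which is `≡ 1` at a valuation ring over `R₀` is an `m`-th power. -/
theorem exact_of_nc (hq : q.Prime) (hA : A.LiesOverPrime q) (hι : IsInertiaField A ι) {m : ℕ}
    (hqm : ¬ q ∣ m) {F' : Type} [Field F'] [Algebra K F'] {V' : ValuationSubring F'}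
    (hcomap : V'.comap (algebraMap K F') = A.comap ι) (hunif : IsUnif V' (algebraMap K F' (q : K)))
    {z : F'} (hz : One1 V' z) {a : K} {w : F'} (ha : a ≠ 0) (h : z = algebraMap K F' a * w ^ m) :
    ∃ w' : F', z = w' ^ m := by
  have hm0 : m ≠ 0 := fun h0 => hqm (h0 ▸ dvd_zero q)
  have hq0 : (q : K) ≠ 0 := Nat.cast_ne_zero.2 hq.ne_zero
  have hw0 : w ≠ 0 := by
    rintro rfl
    rw [zero_pow hm0, mul_zero] at h
    exact hz.ne_zero h
  set π : F' := algebraMap K F' (q : K) with hπ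
  have hπ0 : π ≠ 0 := hunif.ne_zero
  obtain ⟨j, -, h1, h2⟩ := hunif.exists_ord w hw0
  set b : K := a * ((q : K) ^ j) ^ m with hb
  have hb0 : b ≠ 0 := mul_ne_zero ha (pow_ne_zero _ (zpow_ne_zero _ hq0))
  have e1 : algebraMap K F' b = z * (π ^ j / w) ^ m := by
    rw [hb, map_mul, map_pow, map_zpow₀, ← hπ, h, div_pow]
    field_simp
  have e2 : algebraMap K F' b⁻¹ = z⁻¹ * (w / π ^ j) ^ m := by
    rw [map_inv₀, e1, mul_inv, ← inv_pow, inv_div]
  have hbV : b ∈ A.comap ι := by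
    rw [← hcomap, ValuationSubring.mem_comap, e1]
    exact V'.mul_mem _ _ hz.mem (pow_mem h2 m)
  have hbV' : b⁻¹ ∈ A.comap ι := by
    rw [← hcomap, ValuationSubring.mem_comap, e2]
    exact V'.mul_mem _ _ hz.inv_mem (pow_mem h1 m)
  have hb3 : ι b ∉ A.nonunits := by
    intro hn
    have h4 : ι b⁻¹ ∈ A := hbV'
    have := S18.mul_mem_nonunits A h4 hn
    rw [← map_mul, inv_mul_cancel₀ hb0, map_one] at this
    exact S18.one_notMem_nonunits A this
  obtain ⟨y, hy⟩ := hι.exists_root_unit hq hA hqm (u := b) hbV hb3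
  refine ⟨algebraMap K F' (y / (q : K) ^ j) * w, ?_⟩
  rw [mul_pow, ← map_pow, div_pow, hy, hb, mul_div_cancel_right₀ _ (pow_ne_zero _ (zpow_ne_zero _ hq0)), h]

end

theorem toric36 (M q : ℕ) [NeZero M] [NeZero q] (hq : q.Prime)
    (A : ValuationSubring Kb) (hA : A.LiesOverPrime q) {K : Type} [Field K]
    [CharZero K] (ι : K →+* Kb) (hι : IsInertiaField A ι) (G : Geo36 M q A ι)
    {p : ℕ} (hp : p.Prime) (hpq : p ≠ q) (k : ℕ) (u₁ : FK K (M * q * q)) (hu₁ : u₁ ≠ 0)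
    (hdiv : ∀ v : Place Kb (FN (M * q * q)), ((p ^ k : ℕ) : ℤ) ∣ v.ord (toFN ι (M * q * q) u₁))
    (hi : u₁ - 1 ∈ (G.V 0).nonunits) (hm : u₁ - 1 ∈ (G.V 1).nonunits)
    (h0 : u₁ - 1 ∈ (G.V 2).nonunits)
    (hα : NC K (G.α : FK K (M * q) →+* FK K (M * q * q)) (p ^ k) u₁)
    (hβ : NC K (G.β : FK K (M * q) →+* FK K (M * q * q)) (p ^ k) u₁) :
    ∃ w : FN (M * q * q), w ^ (p ^ k) = toFN ι (M * q * q) u₁ ^ toricExp q := by
  have := hι.isDVR hq hA
  have hϖ : Irreducible (q : ↥(A.comap ι)) := hι.irreducible_q hq hA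
  set m : ℕ := p ^ k with hmdef
  have hm0 : 0 < m := pow_pos hp.pos k
  have hqm : ¬ q ∣ m := fun h =>
    hpq ((Nat.prime_dvd_prime_iff_eq hq hp).1 (hq.dvd_of_dvd_pow h)).symm
  have hpR : IsUnit (p : ↥(A.comap ι)) := isUnit_natCast hA ((Nat.coprime_primes hp hq).2 hpq)
  -- the root of unity
  obtain ⟨ζK, hζK⟩ := hι.exists_primitiveRoot hq hA hqm
  have hζmem : ζK ∈ A.comap ι := by
    show ι ζK ∈ A
    apply S18.mem_of_pow_mem A hm0.ne'
    rw [← map_pow, hζK.pow_eq_one, map_one]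
    exact A.one_mem
  have hζ : IsPrimitiveRoot (⟨ζK, hζmem⟩ : ↥(A.comap ι)) m :=
    IsPrimitiveRoot.of_map_of_injective (f := (A.comap ι).subtype) (hf := Subtype.val_injective) hζK
  have hu1 : ∀ j, One1 (G.V j) u₁ := by
    intro j
    fin_cases j
    · exact hi
    · exact hm
    · exact h0
  -- exact norms
  obtain ⟨aα, wα₀, haα, hwα₀⟩ := hα
  obtain ⟨wα, hwα⟩ := exact_of_nc hq hA hι hqm G.ctx.comap_i G.ctx.unif_i'
    (G.tor_fin.degα.norm_one_s (hu1 0) (hu1 1)) haα hwα₀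
  obtain ⟨aβ, wβ₀, haβ, hwβ₀⟩ := hβ
  obtain ⟨wβ, hwβ⟩ := exact_of_nc hq hA hι hqm G.ctx.comap_0 G.ctx.unif_0'
    (G.tor_fin.degβ.norm_one_s (hu1 2) (hu1 1)) haβ hwβ₀
  -- KUMMER
  have hK : ∀ n : Ideal (CInt ↥(A.comap ι) K G.x), IsClosedPt (q : ↥(A.comap ι)) n →
      ∃ h ε : FK K (M * q * q), h ≠ 0 ∧ LocUnit n ε ∧ u₁ = ε * h ^ m := fun n hn =>
    LG.exists_eq_unit_mul_pow hϖ G.tor_fin.vert (S34.valFam_wP ι (M * q * q))
      (S34.intAt_wP ι (M * q * q) G.x G.tor_fin.vert.trans) (LG.exists_wP_eq_one ι (M * q * q)) hn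
      (G.reg_fin n hn) hm0 hu₁ (fun v _ => hdiv v) (fun j _ => ⟨(hu1 j).mem, (hu1 j).inv_mem⟩)
  have hK' : ∀ n : Ideal (CInt ↥(A.comap ι) K G.x⁻¹), IsClosedPt (q : ↥(A.comap ι)) n →
      ∃ h ε : FK K (M * q * q), h ≠ 0 ∧ LocUnit n ε ∧ u₁ = ε * h ^ m := fun n hn =>
    LG.exists_eq_unit_mul_pow hϖ G.tor_inf.vert (S34.valFam_wP ι (M * q * q))
      (S34.intAt_wP ι (M * q * q) G.x⁻¹ G.tor_inf.vert.trans) (LG.exists_wP_eq_one ι (M * q * q)) hn
      (G.reg_inf n hn) hm0 hu₁ (fun v _ => hdiv v) (fun j _ => ⟨(hu1 j).mem, (hu1 j).inv_mem⟩)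
  -- the root in `K((Q))`
  obtain ⟨y, hy⟩ : ∃ y : LaurentSeries K, y ^ m = (u₁ : LaurentSeries K) :=
    V3.exists_root_series (R := ↥(A.comap ι)) (FK K (M * q * q)).val G.x_ord hϖ hm0
      (fun r => hι.exists_root_unit hq hA hqm r.1.2
        ((IsInertiaField.isUnit_iff (r : ↥(A.comap ι))).1 r.isUnit)) hK'
  have hram : ∀ j, ∀ z ∈ (G.V j).nonunits,
      (rE ↥(A.comap ι) K (FK K (M * q * q)) (q : ↥(A.comap ι)))⁻¹ * z ^ q ∈ G.V j := by
    have e : rE ↥(A.comap ι) K (FK K (M * q * q)) (q : ↥(A.comap ι)) =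
        algebraMap K (FK K (M * q * q)) (q : K) := rfl
    intro j z hz
    rw [e]
    fin_cases j
    · exact Tor.hram_i_of_ctx3 G.ctx hz
    · exact Tor.hram_m_of_ctx3 G.ctx hz
    · exact Tor.hram_0_of_ctx3 G.ctx hz
  obtain ⟨w, hw⟩ := Tor.toric (𝕃 := LaurentSeries K) hϖ hq dvd_rfl hp hpR k hζ G.tor_fin G.tor_inf
    (by intro j; fin_cases j <;> simp) hram (Tor.hWA_of_ctx3 G.ctx)
    (fun z hz => by
      obtain ⟨c, hc⟩ := S18.trans_const z hz
      exact ⟨c, hc⟩) hu1 hwα hwβ hK hK' (y := y) hy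
  exact ⟨toFN ι (M * q * q) w, by rw [← map_pow, hw, map_pow, toricExp]⟩

end Fermat.Agent.S36.Core
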