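import Fermat.Agent.S36.Core.Exists
import Fermat.Agent.S36.Core.Toric

set_option autoImplicit false

/-!
# S36 / Core / Main : the core theorem of S36

`core_exists`: for `q ∥∥ P q` (`q ∣ P`, `q² ∤ P`) there is `c ≠ 0` with `AuxL.CoreV P q c`:
a Kummer class of level `P q` fixed by the inertia group at `q` and killed by both degeneracy norms is killed by `c`.

Chain: `K₀`-descent (`Descent/K0`) → `Norm.Ctx3.five_one` → `toric36` → back to `ℚ̄` by `toFN`; general `m` from prime powers; change of the auxiliary level (`AuxL.coreV_of_dvd`).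
-/

noncomputable section

namespace Fermat.Agent.S36.Core

open AlgebraicCurve ModularCurve
open Fermat.Agent.S24 (Kb FN iotaK)
open Fermat.Agent.S18 (toFN)
open Fermat.Agent.GES
open Fermat.Agent.S36.Norm
open Fermat.Agent.S36.Descent (IsInertiaField exists_inertiaField)

/-- the constant of the core theorem at the auxiliary level. -/
def coreExp (q : ℕ) : ℕ := (q + 1) * (q - 1) * toricExp q

theorem coreExp_ne_zero {q : ℕ} (hq : q.Prime) : coreExp q ≠ 0 := by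
  have := hq.two_le
  unfold coreExp
  exact Nat.mul_ne_zero (Nat.mul_ne_zero (by omega) (by omega)) (toricExp_ne_zero hq)

theorem rootsMod {A : ValuationSubring Kb} {q : ℕ} (hq : q.Prime) (hA : A.LiesOverPrime q)
    {K : Type} [Field K] [CharZero K] {ι : K →+* Kb} (hι : IsInertiaField A ι) {m : ℕ}
    (hm : ¬ q ∣ m) : RootsMod (A.comap ι) (q : K) m := by
  intro c hc
  obtain ⟨hc0, h1, h2⟩ := hc
  rw [zpow_zero, div_one] at h1
  rw [zpow_zero, one_div] at h2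
  have h3 : ι c ∉ A.nonunits := by
    intro h
    have h4 : ι c⁻¹ ∈ A := h2
    have := S18.mul_mem_nonunits A h4 h
    rw [← map_mul, inv_mul_cancel₀ hc0, map_one] at this
    exact S18.one_notMem_nonunits A this
  obtain ⟨y, hy⟩ := hι.exists_root_unit hq hA hm (u := c) h1 h3
  refine ⟨y, hc0, ?_⟩
  unfold One1
  rw [hy, div_self hc0, sub_self]
  exact S18.zero_mem_nonunits _

theorem splitAlong_fin {F' F : Type*} [Field F'] [CharZero F'] [Field F] {φ : F' →+* F} {q : ℕ}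
    {V' : ValuationSubring F'} {ϖ : F'} {Va Vb : ValuationSubring F} {t : F}
    (h : SplitAlong φ q V' ϖ Va Vb t) : @FiniteDimensional F' F _ _ φ.toAlgebra.toModule := by
  let _ := φ.toAlgebra
  exact Split.fin h

/-- the core theorem at the auxiliary level for `m = p ^ k`. -/
theorem coreAt_pp (M q : ℕ) [NeZero M] [NeZero q] (hq : q.Prime) (hqM : ¬ q ∣ M)
    (hr : auxR q ∣ M) (A : ValuationSubring Kb) (hA : A.LiesOverPrime q)
    {p : ℕ} (hp : p.Prime) (hpq : p ≠ q) (k : ℕ) (f : FN (M * q * q)) (hf : f ≠ 0)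
    (hdiv : ∀ v : Place Kb (FN (M * q * q)), ((p ^ k : ℕ) : ℤ) ∣ v.ord f)
    (hI : ∀ σ ∈ A.inertiaSubgroupIn ℚ, ∃ w : FN (M * q * q), w ≠ 0 ∧
      galF (M * q * q) σ f = f * w ^ (p ^ k))
    (a : FN (M * q)) (ha : a ^ (p ^ k) = normA (M * q) q f)
    (b : FN (M * q)) (hb : b ^ (p ^ k) = AuxL.normB (M * q) q f) :
    ∃ w : FN (M * q * q), w ^ (p ^ k) = f ^ coreExp q := by
  obtain ⟨K, _, _, ι, hι⟩ := exists_inertiaField A
  obtain ⟨G⟩ := exists_geo36 M q hq hqM hr A hA ι hι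
  set m : ℕ := p ^ k with hm
  have hm0 : 0 < m := pow_pos hp.pos k
  have hqm : ¬ q ∣ m := fun h => hpq ((Nat.prime_dvd_prime_iff_eq hq hp).1 (hq.dvd_of_dvd_pow h)).symm
  have hmq : Nat.Coprime m q := ((Nat.Prime.coprime_iff_not_dvd hq).2 hqm).symm
  obtain ⟨u, w, hw0, huw, hu0, -⟩ := hι.exists_descent (M * q * q) m hm0 f hf hI
  -- the two norms
  have hNα : NC K (G.α : FK K (M * q) →+* FK K (M * q * q)) m u := by
    have hz : normAlong (G.α : FK K (M * q) →+* FK K (M * q * q)) u ≠ 0 := normAlong_ne_zero_of_fin (splitAlong_fin G.ctx.split_α) hu0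
    obtain ⟨c, g, hc, hg, -, -⟩ := hι.exists_root (M * q) m hm0 _ hz
      (a * normA (M * q) q w) (by rw [G.norm_α, huw, map_mul, map_pow, mul_pow, ha])
    exact ⟨c, g, hc, hg⟩
  have hNβ : NC K (G.β : FK K (M * q) →+* FK K (M * q * q)) m u := by
    have hz : normAlong (G.β : FK K (M * q) →+* FK K (M * q * q)) u ≠ 0 := normAlong_ne_zero_of_fin (splitAlong_fin G.ctx.split_β) hu0
    obtain ⟨c, g, hc, hg, -, -⟩ := hι.exists_root (M * q) m hm0 _ hz
      (b * AuxL.normB (M * q) q w) (by rw [G.norm_β, huw, map_mul, map_pow, mul_pow, hb])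
    exact ⟨c, g, hc, hg⟩
  obtain ⟨c, g, u₁, hc, hg, hu₁, hi, hmid, h0⟩ :=
    G.ctx.five_one hmq (rootsMod hq hA hι hqm) hu0 hNα hNβ
  have hcF : algebraMap K (FK K (M * q * q)) c ≠ 0 := (map_ne_zero _).2 hc
  have hu₁0 : u₁ ≠ 0 := by
    rintro rfl
    rw [mul_zero] at hu₁
    exact pow_ne_zero _ hu0 hu₁
  have hu₁' : u₁ = u ^ ((q + 1) * (q - 1)) * algebraMap K (FK K (M * q * q)) c⁻¹ * g⁻¹ ^ m := by
    rw [hu₁, map_inv₀, inv_pow]
    field_simp
  have hα₁ : NC K (G.α : FK K (M * q) →+* FK K (M * q * q)) m u₁ := by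
    rw [hu₁']
    exact ((hNα.pow _).mul (G.ctx.nc_const_α m (inv_ne_zero hc))).mul (nc_pow _ m g⁻¹)
  have hβ₁ : NC K (G.β : FK K (M * q) →+* FK K (M * q * q)) m u₁ := by
    rw [hu₁']
    exact ((hNβ.pow _).mul (G.ctx.nc_const_β m (inv_ne_zero hc))).mul (nc_pow _ m g⁻¹)
  have htu0 : toFN ι (M * q * q) u ≠ 0 := (map_ne_zero _).2 hu0
  have htg0 : toFN ι (M * q * q) g ≠ 0 := (map_ne_zero _).2 hg
  have hdiv₁ : ∀ v : Place Kb (FN (M * q * q)), ((m : ℕ) : ℤ) ∣ v.ord (toFN ι (M * q * q) u₁) := by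
    intro v
    have h1 : (m : ℤ) ∣ v.ord (toFN ι (M * q * q) u) := by
      rw [huw, v.ord_mul hf (pow_ne_zero _ hw0), S24.ord_pow]
      exact dvd_add (hdiv v) (Dvd.intro _ rfl)
    rw [hu₁', map_mul, map_mul, map_pow, map_pow, S34.toFN_algebraMap,
      v.ord_mul (mul_ne_zero (pow_ne_zero _ htu0) ((map_ne_zero _).2 ((map_ne_zero _).2
        (inv_ne_zero hc)))) (pow_ne_zero _ ((map_ne_zero _).2 (inv_ne_zero hg))),
      v.ord_mul (pow_ne_zero _ htu0) ((map_ne_zero _).2 ((map_ne_zero _).2 (inv_ne_zero hc))),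
      S24.ord_algebraMap, add_zero, S24.ord_pow, S24.ord_pow]
    exact dvd_add (Dvd.dvd.mul_left h1 _) (Dvd.intro _ rfl)
  obtain ⟨w₁, hw₁⟩ := toric36 M q hq A hA ι hι G hp hpq k u₁ hu₁0 hdiv₁ hi hmid h0 hα₁ hβ₁
  obtain ⟨γ, hγ⟩ := IsAlgClosed.exists_pow_nat_eq (ι c) hm0
  refine ⟨algebraMap Kb (FN (M * q * q)) γ ^ toricExp q * toFN ι (M * q * q) g ^ toricExp q * w₁ /
    w ^ coreExp q, ?_⟩
  have hff : f = toFN ι (M * q * q) u / w ^ m := by
    rw [huw, mul_div_cancel_right₀ _ (pow_ne_zero _ hw0)]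
  have h2 : toFN ι (M * q * q) u ^ ((q + 1) * (q - 1)) =
      algebraMap Kb (FN (M * q * q)) γ ^ m * toFN ι (M * q * q) g ^ m * toFN ι (M * q * q) u₁ := by
    rw [← map_pow, hu₁, map_mul, map_mul, map_pow, S34.toFN_algebraMap, ← hγ, map_pow]
  rw [div_pow, mul_pow, mul_pow, hw₁]
  conv_rhs => rw [hff, div_pow, coreExp, pow_mul, h2]
  rw [mul_pow, mul_pow]
  rw [← pow_mul, ← pow_mul, ← pow_mul, ← pow_mul, ← pow_mul, ← pow_mul, mul_comm (toricExp q) m,
    mul_comm (coreExp q) m, coreExp]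

/-- roots of coprime orders combine. -/
theorem exists_root_mul {L : Type*} [Field L] {x w₁ w₂ : L} {a b : ℕ} (hab : Nat.Coprime a b)
    (h₁ : w₁ ^ a = x) (h₂ : w₂ ^ b = x) : ∃ w : L, w ^ (a * b) = x := by
  rcases Nat.eq_zero_or_pos a with rfl | ha
  · exact ⟨1, by rw [one_pow, ← h₁, pow_zero]⟩
  rcases Nat.eq_zero_or_pos b with rfl | hb
  · exact ⟨1, by rw [one_pow, ← h₂, pow_zero]⟩
  rcases eq_or_ne x 0 with rfl | hx
  · exact ⟨0, zero_pow (Nat.mul_ne_zero ha.ne' hb.ne')⟩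
  have hw₁ : w₁ ≠ 0 := by
    rintro rfl
    exact hx (by rw [← h₁, zero_pow ha.ne'])
  have hw₂ : w₂ ≠ 0 := by
    rintro rfl
    exact hx (by rw [← h₂, zero_pow hb.ne'])
  have hbez : (a : ℤ) * a.gcdA b + b * a.gcdB b = 1 := by
    have := Nat.gcd_eq_gcd_ab a b
    rw [hab.gcd_eq_one] at this
    exact_mod_cast this.symm
  refine ⟨w₁ ^ (a.gcdB b) * w₂ ^ (a.gcdA b), ?_⟩
  have e1 : (w₁ ^ (a.gcdB b)) ^ (a * b) = x ^ ((b : ℤ) * a.gcdB b) := by
    rw [← h₁, ← zpow_natCast, ← zpow_natCast, ← zpow_mul, ← zpow_mul]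
    congr 1
    push_cast
    ring
  have e2 : (w₂ ^ (a.gcdA b)) ^ (a * b) = x ^ ((a : ℤ) * a.gcdA b) := by
    rw [← h₂, ← zpow_natCast, ← zpow_natCast, ← zpow_mul, ← zpow_mul]
    congr 1
    push_cast
    ring
  rw [mul_pow, e1, e2, ← zpow_add₀ hx, add_comm, hbez, zpow_one]

/-- the core theorem at the auxiliary level `M q²`. -/
theorem coreAt_aux (M q : ℕ) [NeZero M] [NeZero q] (hq : q.Prime) (hqM : ¬ q ∣ M)
    (hr : auxR q ∣ M) : AuxL.CoreAt (M * q) q (coreExp q) := by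
  intro A hA m _ hqm f hfix ⟨a, ha⟩ ⟨b, hb⟩
  set f₀ : FN (M * q * q) := ((f : (FN (M * q * q))ˣ) : FN (M * q * q)) with hf₀
  have hf0 : f₀ ≠ 0 := (f : (FN (M * q * q))ˣ).ne_zero
  have key : ∀ d : ℕ, d ∣ m → ∃ w : FN (M * q * q), w ^ d = f₀ ^ coreExp q := by
    intro d
    induction d using Nat.recOnPosPrimePosCoprime with
    | zero =>
      intro h
      exact absurd (Nat.eq_zero_of_zero_dvd h) (NeZero.ne m)
    | one => exact fun _ => ⟨_, pow_one _⟩
    | prime_pow p k hp hk =>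
      rintro ⟨e, he⟩
      have hpq : p ≠ q := by
        rintro rfl
        exact hqm (he ▸ Dvd.dvd.mul_right (dvd_pow_self p hk.ne') e)
      refine coreAt_pp M q hq hqM hr A hA hp hpq k f₀ hf0 ?_ ?_ (a ^ e) ?_ (b ^ e) ?_
      · intro v
        refine dvd_trans ?_ (f.2 v)
        exact_mod_cast Dvd.intro e he.symm
      · intro σ hσ
        have h1 := hfix σ hσ
        rw [rhoV_mk, Vm.mk_eq_mk_iff] at h1
        obtain ⟨w, hw⟩ := h1
        refine ⟨((w : (FN (M * q * q))ˣ) : FN (M * q * q)) ^ e, pow_ne_zero _ w.ne_zero, ?_⟩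
        have h2 := congrArg (Units.val) hw
        rw [Units.val_pow_eq_pow_val, Units.val_div_eq_div_val] at h2
        have h3 : galF (M * q * q) σ f₀ = f₀ * ((w : (FN (M * q * q))ˣ) : FN (M * q * q)) ^ m := by
          rw [h2]
          show galF (M * q * q) σ f₀ = f₀ * (galF (M * q * q) σ f₀ / f₀)
          field_simp
        rw [h3, ← pow_mul, mul_comm e, ← he]
      · rw [← pow_mul, mul_comm e, ← he, ha]
      · rw [← pow_mul, mul_comm e, ← he, hb]
    | coprime a b _ _ hab iha ihb =>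
      intro h
      obtain ⟨w₁, h₁⟩ := iha (dvd_trans (Dvd.intro _ rfl) h)
      obtain ⟨w₂, h₂⟩ := ihb (dvd_trans (Dvd.intro_left _ rfl) h)
      exact exists_root_mul hab h₁ h₂
  exact key m dvd_rfl

/-- **the core theorem of S36** at the auxiliary level. -/
theorem core (M q : ℕ) [NeZero M] [NeZero q] (hq : q.Prime) (hqM : ¬ q ∣ M) (hr : auxR q ∣ M) :
    AuxL.CoreV (M * q) q (coreExp q) :=
  (AuxL.coreV_iff_coreAt (M * q) q _).mpr (coreAt_aux M q hq hqM hr)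

/-- **the core theorem of S36** at any level `P q` with `q ∣ P`, `q² ∤ P`. -/
theorem core_exists (P q : ℕ) [NeZero P] [NeZero q] (hq : q.Prime) (hqP : q ∣ P)
    (hq2 : ¬ q ^ 2 ∣ P) : ∃ c : ℕ, c ≠ 0 ∧ AuxL.CoreV P q c := by
  obtain ⟨M, rfl⟩ := hqP
  have hM : NeZero M := ⟨fun h => NeZero.ne (q * M) (by rw [h, mul_zero])⟩
  have hqM : ¬ q ∣ M := fun h => hq2 (by rw [pow_two]; exact Nat.mul_dvd_mul_left q h)
  have hqM' : ¬ q ∣ M * auxR q := fun h =>
    (hq.dvd_mul.1 h).elim hqM (fun h' => (Nat.Prime.coprime_iff_not_dvd hq).1 (auxR_coprime hq) h')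
  have hd : q * M ∣ M * auxR q * q := ⟨auxR q, by ring⟩
  have hquot : M * auxR q * q / (q * M) = auxR q := by
    rw [show M * auxR q * q = q * M * auxR q by ring]
    exact Nat.mul_div_cancel_left _ (Nat.pos_of_ne_zero (NeZero.ne (q * M)))
  refine ⟨_, ?_, AuxL.coreV_of_dvd q hd hq (Dvd.intro _ rfl) (by rw [hquot]; exact auxR_coprime hq)
    (core (M * auxR q) q hq hqM' (Dvd.intro_left _ rfl))⟩
  exact Nat.mul_ne_zero (coreExp_ne_zero hq) (AuxL.degI_pos _).ne'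

end Fermat.Agent.S36.Core
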